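import Fermat.Agent.S20.Basis.Forms

/-!
# S20 / Basis / Koszul: the dimension recursion coming from the regular sequence `E₄, E₆`
-/

set_option autoImplicit false

open UpperHalfPlane ModularForm CongruenceSubgroup Matrix.SpecialLinearGroup
open scoped MatrixGroups ModularForm Manifold

namespace Fermat.Agent.S20

noncomputable section

/-- The Koszul map `(a, b) ↦ E₄ a + E₆ b`. -/
def basis_kos (N : ℕ) (w : ℤ) :
    (↥(basis_M N (w - 4)) × ↥(basis_M N (w - 6))) →ₗ[ℂ] (ℍ → ℂ) :=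
  ((LinearMap.mulLeft ℂ (⇑E₄ : ℍ → ℂ)).comp (basis_M N (w - 4)).subtype).coprod
    ((LinearMap.mulLeft ℂ (⇑E₆ : ℍ → ℂ)).comp (basis_M N (w - 6)).subtype)

lemma basis_kos_apply (N : ℕ) (w : ℤ) (x : ↥(basis_M N (w - 4)) × ↥(basis_M N (w - 6))) :
    basis_kos N w x = ⇑E₄ * (x.1 : ℍ → ℂ) + ⇑E₆ * (x.2 : ℍ → ℂ) := rfl

/-- `N_w = E₄ M_{w-4} + E₆ M_{w-6}`. -/
def basis_Nsub (N : ℕ) (w : ℤ) : Submodule ℂ (ℍ → ℂ) := LinearMap.range (basis_kos N w)

lemma basis_mem_Nsub {N : ℕ} {w : ℤ} {g : ℍ → ℂ} :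
    g ∈ basis_Nsub N w ↔
      ∃ a ∈ basis_M N (w - 4), ∃ b ∈ basis_M N (w - 6), g = ⇑E₄ * a + ⇑E₆ * b := by
  constructor
  · rintro ⟨⟨a, b⟩, rfl⟩
    exact ⟨a, a.2, b, b.2, rfl⟩
  · rintro ⟨a, ha, b, hb, rfl⟩
    exact ⟨(⟨a, ha⟩, ⟨b, hb⟩), rfl⟩

lemma basis_Nsub_le (N : ℕ) [NeZero N] (w : ℤ) : basis_Nsub N w ≤ basis_M N w := by
  intro g hg
  obtain ⟨a, ha, b, hb, rfl⟩ := basis_mem_Nsub.mp hg
  exact Submodule.add_mem _ (basis_R_mul_M' basis_E4_mem ha (by ring))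
    (basis_R_mul_M' basis_E6_mem hb (by ring))

/-- The second Koszul map `v ↦ (-E₆ v, E₄ v)`. -/
def basis_lam (N : ℕ) [NeZero N] (w : ℤ) :
    ↥(basis_M N (w - 10)) →ₗ[ℂ] (↥(basis_M N (w - 4)) × ↥(basis_M N (w - 6))) :=
  LinearMap.prod
    (LinearMap.codRestrict (basis_M N (w - 4))
      ((LinearMap.mulLeft ℂ (-(⇑E₆ : ℍ → ℂ))).comp (basis_M N (w - 10)).subtype)
      (fun v => basis_R_mul_M' (Submodule.neg_mem _ basis_E6_mem) v.2 (by ring)))
    (LinearMap.codRestrict (basis_M N (w - 6))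
      ((LinearMap.mulLeft ℂ (⇑E₄ : ℍ → ℂ)).comp (basis_M N (w - 10)).subtype)
      (fun v => basis_R_mul_M' basis_E4_mem v.2 (by ring)))

lemma basis_lam_fst (N : ℕ) [NeZero N] (w : ℤ) (v : ↥(basis_M N (w - 10))) :
    ((basis_lam N w v).1 : ℍ → ℂ) = -(⇑E₆ : ℍ → ℂ) * (v : ℍ → ℂ) := rfl

lemma basis_lam_snd (N : ℕ) [NeZero N] (w : ℤ) (v : ↥(basis_M N (w - 10))) :
    ((basis_lam N w v).2 : ℍ → ℂ) = (⇑E₄ : ℍ → ℂ) * (v : ℍ → ℂ) := rfl

lemma basis_eq_zero_of_mul {v : ℍ → ℂ} (h4 : ⇑E₄ * v = 0) (h6 : ⇑E₆ * v = 0) : v = 0 := by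
  funext τ
  have h4τ := congrFun h4 τ
  have h6τ := congrFun h6 τ
  simp only [Pi.mul_apply, Pi.zero_apply] at h4τ h6τ ⊢
  have hD := discriminant_eq_E₄_cube_sub_E₆_sq τ
  have hne := discriminant_ne_zero τ
  by_contra hv
  have e4 : E₄ τ = 0 := (mul_eq_zero.mp h4τ).resolve_right hv
  have e6 : E₆ τ = 0 := (mul_eq_zero.mp h6τ).resolve_right hv
  rw [e4, e6] at hD
  apply hne
  rw [hD]
  norm_num

lemma basis_lam_injective (N : ℕ) [NeZero N] (w : ℤ) : Function.Injective (basis_lam N w) := by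
  rw [injective_iff_map_eq_zero]
  intro v hv
  have h1 : -(⇑E₆ : ℍ → ℂ) * (v : ℍ → ℂ) = 0 := by
    rw [← basis_lam_fst, hv]; rfl
  have h2 : (⇑E₄ : ℍ → ℂ) * (v : ℍ → ℂ) = 0 := by
    rw [← basis_lam_snd, hv]; rfl
  apply Subtype.ext
  exact basis_eq_zero_of_mul h2 (by rw [neg_mul, neg_eq_zero] at h1; exact h1)

lemma basis_range_lam (N : ℕ) [NeZero N] (w : ℤ) :
    LinearMap.range (basis_lam N w) = LinearMap.ker (basis_kos N w) := by
  apply le_antisymm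
  · rintro _ ⟨v, rfl⟩
    rw [LinearMap.mem_ker, basis_kos_apply, basis_lam_fst, basis_lam_snd]
    ring
  · rintro ⟨a, b⟩ hab
    rw [LinearMap.mem_ker, basis_kos_apply] at hab
    have ha' : -(a : ℍ → ℂ) ∈ basis_M N (w - 6 + 2) := by
      rw [show w - 6 + 2 = w - 4 by ring]
      exact Submodule.neg_mem _ a.2
    have hrel : ⇑E₆ * (b : ℍ → ℂ) = ⇑E₄ * (-(a : ℍ → ℂ)) := by
      simp only at hab
      linear_combination hab
    obtain ⟨v, hv, hb, ha⟩ := basis_div b.2 ha' hrel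
    rw [show w - 6 - 4 = w - 10 by ring] at hv
    refine ⟨⟨v, hv⟩, ?_⟩
    apply Prod.ext
    · apply Subtype.ext
      rw [basis_lam_fst]
      simp only
      linear_combination ha
    · apply Subtype.ext
      rw [basis_lam_snd]
      exact hb.symm

/-- The dimension of `M_w`. -/
def basis_m (N : ℕ) (w : ℤ) : ℕ := Module.finrank ℂ ↥(basis_M N w)

lemma basis_Nsub_fd (N : ℕ) [NeZero N] (w : ℤ) : FiniteDimensional ℂ ↥(basis_Nsub N w) := by
  have := basis_M_fd N w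
  exact Submodule.finiteDimensional_of_le (basis_Nsub_le N w)

lemma basis_finrank_Nsub (N : ℕ) [NeZero N] (w : ℤ) :
    Module.finrank ℂ ↥(basis_Nsub N w) + basis_m N (w - 10) =
      basis_m N (w - 4) + basis_m N (w - 6) := by
  have := basis_M_fd N (w - 4)
  have := basis_M_fd N (w - 6)
  have := basis_M_fd N (w - 10)
  have h1 := LinearMap.finrank_range_add_finrank_ker (basis_kos N w)
  rw [← basis_range_lam, LinearMap.finrank_range_of_inj (basis_lam_injective N w),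
    Module.finrank_prod] at h1
  exact h1

/-- A complement of `N_w` in `M_w`. -/
def basis_C (N : ℕ) (w : ℤ) : Submodule ℂ (ℍ → ℂ) :=
  Classical.choose (Submodule.exists_isCompl (basis_Nsub N w)) ⊓ basis_M N w

lemma basis_C_le (N : ℕ) (w : ℤ) : basis_C N w ≤ basis_M N w := inf_le_right

lemma basis_C_inf (N : ℕ) (w : ℤ) : basis_Nsub N w ⊓ basis_C N w = ⊥ := by
  have h := Classical.choose_spec (Submodule.exists_isCompl (basis_Nsub N w))
  rw [basis_C, ← inf_assoc, h.inf_eq_bot, bot_inf_eq]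

lemma basis_C_sup (N : ℕ) [NeZero N] (w : ℤ) : basis_Nsub N w ⊔ basis_C N w = basis_M N w := by
  have h := Classical.choose_spec (Submodule.exists_isCompl (basis_Nsub N w))
  rw [basis_C, ← sup_inf_assoc_of_le _ (basis_Nsub_le N w), h.sup_eq_top, top_inf_eq]

lemma basis_C_fd (N : ℕ) [NeZero N] (w : ℤ) : FiniteDimensional ℂ ↥(basis_C N w) := by
  have := basis_M_fd N w
  exact Submodule.finiteDimensional_of_le (basis_C_le N w)

/-- The number of generators of weight `w`. -/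
abbrev basis_d (N : ℕ) (w : ℤ) : ℕ := Module.finrank ℂ ↥(basis_C N w)

lemma basis_d_le (N : ℕ) [NeZero N] (w : ℤ) : basis_d N w ≤ basis_m N w := by
  have := basis_M_fd N w
  exact Submodule.finrank_mono (basis_C_le N w)

lemma basis_m_eq (N : ℕ) [NeZero N] (w : ℤ) :
    basis_m N w = basis_d N w + Module.finrank ℂ ↥(basis_Nsub N w) := by
  have := basis_Nsub_fd N w
  have := basis_C_fd N w
  have h := Submodule.finrank_sup_add_finrank_inf_eq (basis_Nsub N w) (basis_C N w)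
  rw [basis_C_sup, basis_C_inf, finrank_bot, add_zero] at h
  rw [basis_m, h, add_comm]

lemma basis_m_rec (N : ℕ) [NeZero N] (w : ℤ) :
    basis_m N w + basis_m N (w - 10) = basis_d N w + basis_m N (w - 4) + basis_m N (w - 6) := by
  have h1 := basis_m_eq N w
  have h2 := basis_finrank_Nsub N w
  omega

lemma basis_m_neg (N : ℕ) [NeZero N] (w : ℤ) (hw : w < 0) : basis_m N w = 0 := by
  have : basis_M N w = ⊥ := by
    rw [Submodule.eq_bot_iff]
    exact fun g hg => basis_M_eq_zero_of_neg hw hg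
  rw [basis_m, this, finrank_bot]

lemma basis_m_odd (N : ℕ) [NeZero N] (w : ℤ) (hw : w % 2 = 1) : basis_m N w = 0 := by
  have : basis_M N w = ⊥ := by
    rw [Submodule.eq_bot_iff]
    exact fun g hg => basis_M_eq_zero_of_odd (Int.odd_iff.mpr hw) hg
  rw [basis_m, this, finrank_bot]

lemma basis_m_le (N : ℕ) [NeZero N] (w : ℤ) :
    basis_m N w ≤ (w * ((Gamma0 N).index : ℕ)).toNat / 12 + 1 :=
  basis_finrank_M_le N w

/-- The chosen generators of weight `w`. -/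
def basis_b (N : ℕ) [NeZero N] (w : ℤ) (i : Fin (basis_d N w)) : ℍ → ℂ :=
  haveI := basis_C_fd N w
  ((Module.finBasis ℂ ↥(basis_C N w)) i : ℍ → ℂ)

lemma basis_b_mem (N : ℕ) [NeZero N] (w : ℤ) (i : Fin (basis_d N w)) :
    basis_b N w i ∈ basis_M N w :=
  basis_C_le N w (Subtype.property _)

lemma basis_decomp {N : ℕ} [NeZero N] {w : ℤ} {g : ℍ → ℂ} (hg : g ∈ basis_M N w) :
    ∃ γ : Fin (basis_d N w) → ℂ, ∃ a ∈ basis_M N (w - 4), ∃ b ∈ basis_M N (w - 6),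
      g = ∑ i, γ i • basis_b N w i + ⇑E₄ * a + ⇑E₆ * b := by
  have := basis_C_fd N w
  rw [← basis_C_sup] at hg
  obtain ⟨n, hn, c, hc, rfl⟩ := Submodule.mem_sup.mp hg
  obtain ⟨a, ha, b, hb, rfl⟩ := basis_mem_Nsub.mp hn
  refine ⟨fun i => (Module.finBasis ℂ ↥(basis_C N w)).repr ⟨c, hc⟩ i, a, ha, b, hb, ?_⟩
  have h := (Module.finBasis ℂ ↥(basis_C N w)).sum_repr ⟨c, hc⟩
  have h' := congrArg Subtype.val h
  rw [Submodule.coe_sum] at h'
  simp only [Submodule.coe_smul] at h'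
  have h'' : ∑ i, (fun i => (Module.finBasis ℂ ↥(basis_C N w)).repr ⟨c, hc⟩ i) i • basis_b N w i
      = c := h'
  rw [h'']
  ring

end

end Fermat.Agent.S20
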