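import Mathlib

/-!
# S20 / Basis / Numerics: the Hilbert series bookkeeping (pure arithmetic)
-/

set_option autoImplicit false

namespace Fermat.Agent.S20

/-- The dimension of the space of level one modular forms of weight `w`. -/
def basis_rho (w : ℤ) : ℕ :=
  if w < 0 ∨ w % 2 = 1 then 0 else if w.toNat % 12 = 2 then w.toNat / 12 else w.toNat / 12 + 1

lemma basis_rho_spec (w : ℤ) :
    ((w < 0 ∨ w % 2 = 1) → basis_rho w = 0) ∧
    (-8 ≤ w → w % 2 = 0 → (basis_rho w : ℤ) = w / 4 - (w + 4) / 6 + 1) := by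
  unfold basis_rho
  split_ifs <;> omega

lemma basis_rho_rec (w : ℤ) :
    basis_rho w + basis_rho (w - 10) =
      (if w = 0 then 1 else 0) + basis_rho (w - 4) + basis_rho (w - 6) := by
  obtain ⟨a1, b1⟩ := basis_rho_spec w
  obtain ⟨a2, b2⟩ := basis_rho_spec (w - 10)
  obtain ⟨a3, b3⟩ := basis_rho_spec (w - 4)
  obtain ⟨a4, b4⟩ := basis_rho_spec (w - 6)
  by_cases hneg : w < 0
  · rw [a1 (Or.inl hneg), a2 (Or.inl (by omega)), a3 (Or.inl (by omega)),
      a4 (Or.inl (by omega)), if_neg (by omega)]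
  · by_cases hodd : w % 2 = 1
    · rw [a1 (Or.inr hodd), a2 (Or.inr (by omega)), a3 (Or.inr (by omega)),
        a4 (Or.inr (by omega)), if_neg (by omega)]
    · by_cases h0 : w = 0
      · have e1 := b1 (by omega) (by omega)
        rw [a2 (Or.inl (by omega)), a3 (Or.inl (by omega)), a4 (Or.inl (by omega)), if_pos h0]
        omega
      · have e1 := b1 (by omega) (by omega)
        have e2 := b2 (by omega) (by omega)
        have e3 := b3 (by omega) (by omega)
        have e4 := b4 (by omega) (by omega)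
        rw [if_neg h0]
        omega

lemma basis_rho_neg {w : ℤ} (hw : w < 0) : basis_rho w = 0 := by
  simp [basis_rho, hw]

lemma basis_rho_lower (T B : ℕ) (w : ℤ) (h0 : 0 ≤ w) (hB : w ≤ B) (he : w % 2 = 0) :
    T ≤ basis_rho (12 * T - w) + B := by
  obtain ⟨a1, b1⟩ := basis_rho_spec (12 * T - w)
  by_cases h : 12 * (T : ℤ) - w < 0
  · omega
  · have e1 := b1 (by omega) (by omega)
    omega

section

variable (m d : ℤ → ℕ) (μ : ℕ)

lemma basis_num_conv (h1 : ∀ w, w < 0 → m w = 0)
    (h2 : ∀ w, m w + m (w - 10) = d w + m (w - 4) + m (w - 6)) (B : ℕ) :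
    ∀ n : ℕ, ∀ W : ℤ, W < n → W ≤ B →
      m W = ∑ w ∈ Finset.Icc (0 : ℤ) B, d w * basis_rho (W - w) := by
  have hneg : ∀ W : ℤ, W < 0 →
      m W = ∑ w ∈ Finset.Icc (0 : ℤ) B, d w * basis_rho (W - w) := by
    intro W hW
    rw [h1 W hW]
    symm
    apply Finset.sum_eq_zero
    intro w hw
    rw [Finset.mem_Icc] at hw
    rw [basis_rho_neg (by omega), mul_zero]
  intro n
  induction n with
  | zero =>
    intro W hW _
    exact hneg W (by simpa using hW)
  | succ n ih =>
    intro W hW hWB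
    by_cases hn : W < 0
    · exact hneg W hn
    · have e4 := ih (W - 4) (by push_cast at hW; omega) (by omega)
      have e6 := ih (W - 6) (by push_cast at hW; omega) (by omega)
      have e10 := ih (W - 10) (by push_cast at hW; omega) (by omega)
      have hsingle : ∑ w ∈ Finset.Icc (0 : ℤ) B, d w * (if w = W then 1 else 0) = d W := by
        rw [Finset.sum_eq_single W]
        · simp
        · intro b _ hb
          simp [hb]
        · intro hW'
          exfalso
          apply hW'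
          rw [Finset.mem_Icc]
          omega
      have key : (∑ w ∈ Finset.Icc (0 : ℤ) B, d w * basis_rho (W - w)) +
          (∑ w ∈ Finset.Icc (0 : ℤ) B, d w * basis_rho (W - 10 - w)) =
          d W + (∑ w ∈ Finset.Icc (0 : ℤ) B, d w * basis_rho (W - 4 - w)) +
            ∑ w ∈ Finset.Icc (0 : ℤ) B, d w * basis_rho (W - 6 - w) := by
        rw [← Finset.sum_add_distrib, ← hsingle, ← Finset.sum_add_distrib,
          ← Finset.sum_add_distrib]
        apply Finset.sum_congr rfl
        intro w _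
        have hr := basis_rho_rec (W - w)
        rw [show W - w - 10 = W - 10 - w by ring, show W - w - 4 = W - 4 - w by ring,
          show W - w - 6 = W - 6 - w by ring] at hr
        have hif : (if W - w = 0 then 1 else 0 : ℕ) = if w = W then 1 else 0 := by
          by_cases hwW : w = W
          · rw [if_pos hwW, if_pos (by omega)]
          · rw [if_neg hwW, if_neg (by omega)]
        rw [hif] at hr
        rw [← mul_add, hr]
        ring
      have := h2 W
      omega

lemma basis_num_conv' (h1 : ∀ w, w < 0 → m w = 0)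
    (h2 : ∀ w, m w + m (w - 10) = d w + m (w - 4) + m (w - 6)) (B : ℕ) (W : ℤ) (hW : W ≤ B) :
    m W = ∑ w ∈ Finset.Icc (0 : ℤ) B, d w * basis_rho (W - w) :=
  basis_num_conv m d h1 h2 B (W.toNat + 1) W (by push_cast; omega) hW

lemma basis_num_bound (h1 : ∀ w, w < 0 → m w = 0)
    (h2 : ∀ w, m w + m (w - 10) = d w + m (w - 4) + m (w - 6))
    (h3 : ∀ w, m w ≤ (w * μ).toNat / 12 + 1) (h4 : ∀ w, w % 2 = 1 → d w = 0) (B : ℕ) :
    ∑ w ∈ Finset.Icc (0 : ℤ) B, d w ≤ μ := by
  by_contra hcon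
  rw [not_le] at hcon
  have hT : ∃ T : ℕ, T = (μ + 1) * B + 2 := ⟨_, rfl⟩
  obtain ⟨T, hT⟩ := hT
  have hBT : B ≤ 12 * T := by rw [hT]; nlinarith
  have hconv := basis_num_conv' m d h1 h2 (12 * T) ((12 * T : ℕ) : ℤ) le_rfl
  have hsub : Finset.Icc (0 : ℤ) B ⊆ Finset.Icc (0 : ℤ) ((12 * T : ℕ) : ℤ) := by
    apply Finset.Icc_subset_Icc le_rfl
    exact_mod_cast hBT
  have hle : (∑ w ∈ Finset.Icc (0 : ℤ) B, d w) * (T - B) ≤ m ((12 * T : ℕ) : ℤ) := by
    rw [hconv, Finset.sum_mul]
    refine le_trans (Finset.sum_le_sum ?_) (Finset.sum_le_sum_of_subset hsub)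
    intro w hw
    rw [Finset.mem_Icc] at hw
    rcases Int.emod_two_eq_zero_or_one w with he | ho
    · apply Nat.mul_le_mul_left
      have := basis_rho_lower T B w hw.1 hw.2 he
      push_cast
      omega
    · rw [h4 w ho]; simp
  have hm := h3 ((12 * T : ℕ) : ℤ)
  have h12 : (((12 * T : ℕ) : ℤ) * μ).toNat / 12 = T * μ := by
    have : (((12 * T : ℕ) : ℤ) * μ) = ((12 * (T * μ) : ℕ) : ℤ) := by push_cast; ring
    rw [this, Int.toNat_natCast]
    omega
  rw [h12] at hm
  have hTB : T - B = μ * B + 2 := by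
    rw [hT]
    have : (μ + 1) * B + 2 = (μ * B + 2) + B := by ring
    omega
  rw [hTB] at hle
  have h5 : (μ + 1) * (μ * B + 2) ≤ T * μ + 1 :=
    le_trans (Nat.mul_le_mul_right _ hcon) (le_trans hle hm)
  rw [hT] at h5
  nlinarith

lemma basis_num_fin (hbound : ∀ B : ℕ, ∑ w ∈ Finset.Icc (0 : ℤ) B, d w ≤ μ) :
    ∃ K : ℕ, ∀ w : ℤ, (K : ℤ) < w → d w = 0 := by
  by_contra hcon
  push Not at hcon
  have key : ∀ n : ℕ, ∃ B : ℕ, n ≤ ∑ w ∈ Finset.Icc (0 : ℤ) B, d w := by
    intro n
    induction n with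
    | zero => exact ⟨0, Nat.zero_le _⟩
    | succ n ih =>
      obtain ⟨B, hB⟩ := ih
      obtain ⟨w, hw, hdw⟩ := hcon B
      refine ⟨w.toNat, ?_⟩
      have hsub : insert w (Finset.Icc (0 : ℤ) B) ⊆ Finset.Icc (0 : ℤ) (w.toNat) := by
        intro x hx
        rw [Finset.mem_insert, Finset.mem_Icc] at hx
        rw [Finset.mem_Icc]
        omega
      have hnot : w ∉ Finset.Icc (0 : ℤ) B := by
        rw [Finset.mem_Icc]; omega
      calc n + 1 ≤ (∑ x ∈ Finset.Icc (0 : ℤ) B, d x) + d w := by omega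
        _ = ∑ x ∈ insert w (Finset.Icc (0 : ℤ) B), d x := by
            rw [Finset.sum_insert hnot, add_comm]
        _ ≤ _ := Finset.sum_le_sum_of_subset hsub
  obtain ⟨B, hB⟩ := key (μ + 1)
  have := hbound B
  omega

lemma basis_num_final (h1 : ∀ w, w < 0 → m w = 0)
    (h2 : ∀ w, m w + m (w - 10) = d w + m (w - 4) + m (w - 6))
    (K : ℕ) (hK : ∀ w : ℤ, (K : ℤ) < w → d w = 0) (W : ℤ) :
    ∑ w ∈ Finset.Icc (0 : ℤ) K, d w * basis_rho (W - w) = m W := by
  rw [basis_num_conv' m d h1 h2 (max K W.toNat) W (by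
    have : W.toNat ≤ max K W.toNat := le_max_right _ _
    omega)]
  apply Finset.sum_subset
  · apply Finset.Icc_subset_Icc le_rfl
    exact_mod_cast le_max_left K W.toNat
  · intro w hw hw'
    rw [Finset.mem_Icc] at hw hw'
    rw [hK w (by omega), zero_mul]

end

end Fermat.Agent.S20
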