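import Fermat.Agent.S20.Defs
import Fermat.Prelude.Thm_ModularForm_sturm_bound_Gamma0
import Fermat.Prelude.Thm_CongruenceSubgroup_one_mem_strictPeriods_Gamma0
import Fermat.Agent.S20.Basis.Numerics

/-!
# S20 / Basis / Forms: the spaces of modular forms as subspaces of `ℍ → ℂ`
-/

set_option autoImplicit false

open UpperHalfPlane ModularForm CongruenceSubgroup Matrix.SpecialLinearGroup
open scoped MatrixGroups ModularForm Manifold

namespace Fermat.Agent.S20

noncomputable section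

/-- Coercion to functions, as a linear map (level `Γ₀(N)`). -/
def basis_coeM (N : ℕ) (w : ℤ) : ModularForm (Γ N) w →ₗ[ℂ] (ℍ → ℂ) where
  toFun f := ⇑f
  map_add' _ _ := rfl
  map_smul' _ _ := rfl

/-- Coercion to functions, as a linear map (level one). -/
def basis_coeR (w : ℤ) : ModularForm 𝒮ℒ w →ₗ[ℂ] (ℍ → ℂ) where
  toFun f := ⇑f
  map_add' _ _ := rfl
  map_smul' _ _ := rfl

/-- The space of modular forms of level `Γ₀(N)` and weight `w`, as a space of functions. -/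
def basis_M (N : ℕ) (w : ℤ) : Submodule ℂ (ℍ → ℂ) := LinearMap.range (basis_coeM N w)

/-- The space of modular forms of level one and weight `w`, as a space of functions. -/
def basis_R (w : ℤ) : Submodule ℂ (ℍ → ℂ) := LinearMap.range (basis_coeR w)

lemma basis_mem_M {N : ℕ} {w : ℤ} {g : ℍ → ℂ} :
    g ∈ basis_M N w ↔ ∃ f : ModularForm (Γ N) w, ⇑f = g := Iff.rfl

lemma basis_mem_R {w : ℤ} {g : ℍ → ℂ} :
    g ∈ basis_R w ↔ ∃ f : ModularForm 𝒮ℒ w, ⇑f = g := Iff.rfl

lemma basis_coeM_injective (N : ℕ) (w : ℤ) : Function.Injective (basis_coeM N w) :=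
  fun _ _ h => DFunLike.coe_injective h

lemma basis_coeR_injective (w : ℤ) : Function.Injective (basis_coeR w) :=
  fun _ _ h => DFunLike.coe_injective h

lemma basis_levelOne_slash {w : ℤ} (p : ModularForm 𝒮ℒ w) (γ : SL(2, ℤ)) :
    (⇑p) ∣[w] γ = ⇑p := by
  rw [SL_slash]
  exact SlashInvariantFormClass.slash_action_eq p _ ⟨_, rfl⟩

lemma basis_R_mul_M {N : ℕ} [NeZero N] {a b : ℤ} {p g : ℍ → ℂ} (hp : p ∈ basis_R a)
    (hg : g ∈ basis_M N b) : p * g ∈ basis_M N (a + b) := by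
  obtain ⟨p, rfl⟩ := hp
  obtain ⟨g, rfl⟩ := hg
  refine ⟨mkMF N (a + b) (⇑p * ⇑g) ?_ ?_ ?_, rfl⟩
  · intro γ hγ
    rw [mul_slash_SL2, basis_levelOne_slash, inv_of_modularForm g γ hγ]
  · exact p.holo'.mul g.holo'
  · intro γ
    rw [mul_slash_SL2]
    exact (ModularFormClass.bdd_at_infty_slash p γ).mul (ModularFormClass.bdd_at_infty_slash g γ)

lemma basis_R_mul_M' {N : ℕ} [NeZero N] {a b c : ℤ} {p g : ℍ → ℂ} (hp : p ∈ basis_R a)
    (hg : g ∈ basis_M N b) (hc : a + b = c) : p * g ∈ basis_M N c :=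
  hc ▸ basis_R_mul_M hp hg

lemma basis_M_eq_zero_of_neg {N : ℕ} [NeZero N] {w : ℤ} (hw : w < 0) {g : ℍ → ℂ}
    (hg : g ∈ basis_M N w) : g = 0 := by
  obtain ⟨f, rfl⟩ := hg
  rw [ModularForm.isZero_of_neg_weight hw f]
  rfl

lemma basis_R_eq_zero_of_neg {w : ℤ} (hw : w < 0) {g : ℍ → ℂ}
    (hg : g ∈ basis_R w) : g = 0 := by
  obtain ⟨f, rfl⟩ := hg
  rw [ModularForm.isZero_of_neg_weight hw f]
  rfl

lemma basis_neg_one_mem (N : ℕ) : (-1 : GL (Fin 2) ℝ) ∈ Γ N := by
  refine ⟨-1, ?_, ?_⟩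
  · simp [Gamma0_mem]
  · ext i j
    simp

lemma basis_M_eq_zero_of_odd {N : ℕ} [NeZero N] {w : ℤ} (hw : Odd w) {g : ℍ → ℂ}
    (hg : g ∈ basis_M N w) : g = 0 := by
  obtain ⟨f, rfl⟩ := hg
  rw [ModularForm.eq_zero_of_neg_one_mem (basis_neg_one_mem N) hw f]
  rfl

lemma basis_const_mem_R (c : ℂ) : (fun _ : ℍ => c) ∈ basis_R 0 :=
  ⟨ModularForm.const c, rfl⟩

lemma basis_E4_mem : (⇑E₄ : ℍ → ℂ) ∈ basis_R 4 := ⟨E₄, rfl⟩

lemma basis_E6_mem : (⇑E₆ : ℍ → ℂ) ∈ basis_R 6 := ⟨E₆, rfl⟩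

/-! ### The division lemma -/

lemma basis_E4_tendsto : Filter.Tendsto (⇑E₄ : ℍ → ℂ) atImInfty (nhds 1) := by
  have hanal := ModularFormClass.analyticAt_cuspFunction_zero E₄ one_pos one_mem_strictPeriods_SL
  have h0 : cuspFunction 1 (⇑E₄) 0 = 1 := by
    have := EisensteinSeries.E_qExpansion_coeff_zero (k := 4) (by norm_num) ⟨2, rfl⟩
    rw [qExpansion_coeff] at this
    simpa using this
  have := (hanal.continuousAt.tendsto.comp (qParam_tendsto_atImInfty one_pos)).congr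
    (fun τ => SlashInvariantFormClass.eq_cuspFunction E₄ τ one_mem_strictPeriods_SL one_ne_zero)
  rwa [h0] at this

lemma basis_bdd_of_E4_mul {u : ℍ → ℂ} (h : IsBoundedAtImInfty (⇑E₄ * u)) :
    IsBoundedAtImInfty u := by
  have hev : ∀ᶠ τ in atImInfty, (1 / 2 : ℝ) < ‖E₄ τ‖ := by
    have := basis_E4_tendsto.norm
    rw [norm_one] at this
    exact this.eventually (lt_mem_nhds (by norm_num))
  refine Asymptotics.IsBigO.trans ?_ h
  refine Asymptotics.IsBigO.of_bound 2 ?_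
  filter_upwards [hev] with τ hτ
  rw [Pi.mul_apply, norm_mul]
  nlinarith [norm_nonneg (u τ)]

lemma basis_div {N : ℕ} [NeZero N] {w : ℤ} {f g : ℍ → ℂ} (hf : f ∈ basis_M N w)
    (hg : g ∈ basis_M N (w + 2)) (h : ⇑E₆ * f = ⇑E₄ * g) :
    ∃ v ∈ basis_M N (w - 4), f = ⇑E₄ * v ∧ g = ⇑E₆ * v := by
  have hnum : ⇑E₄ * (⇑E₄ * f) - ⇑E₆ * g ∈ basis_M N (w + 8) := by
    refine Submodule.sub_mem _ ?_ ?_
    · exact basis_R_mul_M' basis_E4_mem (basis_R_mul_M' basis_E4_mem hf rfl) (by ring)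
    · exact basis_R_mul_M' basis_E6_mem hg (by ring)
  rw [basis_mem_M] at hnum hf
  obtain ⟨F, hF⟩ := hnum
  obtain ⟨f', rfl⟩ := hf
  have hΔ : ∀ τ, ((1728 : ℂ) • ⇑CuspForm.discriminant) τ ≠ 0 := by
    intro τ
    rw [Pi.smul_apply, smul_eq_mul]
    exact mul_ne_zero (by norm_num) (discriminant_ne_zero τ)
  have hD : ∀ τ, ((1728 : ℂ) • ⇑CuspForm.discriminant) τ = E₄ τ ^ 3 - E₆ τ ^ 2 := by
    intro τ
    rw [Pi.smul_apply, smul_eq_mul]
    have := discriminant_eq_E₄_cube_sub_E₆_sq τ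
    rw [CuspForm.coe_discriminant, this]
    ring
  have h1 : ⇑f' = ⇑E₄ * (⇑F / ((1728 : ℂ) • ⇑CuspForm.discriminant)) := by
    funext τ
    have hτ := congrFun h τ
    have hFτ := congrFun hF τ
    simp only [Pi.mul_apply, Pi.sub_apply] at hτ hFτ
    rw [Pi.mul_apply, Pi.div_apply, eq_comm, mul_div_assoc', div_eq_iff (hΔ τ), hD τ, hFτ]
    linear_combination (E₆ τ) * hτ
  have h2 : g = ⇑E₆ * (⇑F / ((1728 : ℂ) • ⇑CuspForm.discriminant)) := by
    funext τ
    have hτ := congrFun h τ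
    have hFτ := congrFun hF τ
    simp only [Pi.mul_apply, Pi.sub_apply] at hτ hFτ
    rw [Pi.mul_apply, Pi.div_apply, eq_comm, mul_div_assoc', div_eq_iff (hΔ τ), hD τ, hFτ]
    linear_combination (E₄ τ) ^ 2 * hτ
  refine ⟨⇑F / ((1728 : ℂ) • ⇑CuspForm.discriminant), ?_, h1, h2⟩
  refine ⟨mkMF N (w - 4) (⇑F / ((1728 : ℂ) • ⇑CuspForm.discriminant)) ?_ ?_ ?_, rfl⟩
  · intro γ hγ
    have hw : (w - 4 : ℤ) = (w + 8) - 12 := by ring
    have hΔγ : (⇑CuspForm.discriminant) ∣[(12 : ℤ)] γ = ⇑CuspForm.discriminant := by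
      rw [SL_slash]
      exact SlashInvariantFormClass.slash_action_eq CuspForm.discriminant _ ⟨_, rfl⟩
    rw [hw, div_slash_SL2, inv_of_modularForm F γ hγ, SL_smul_slash, hΔγ]
  · exact F.holo'.div (CuspForm.discriminant.holo'.const_smul (1728 : ℂ)) hΔ
  · intro γ
    apply basis_bdd_of_E4_mul
    have e := mul_slash_SL2 4 (w - 4) γ (⇑E₄) (⇑F / ((1728 : ℂ) • ⇑CuspForm.discriminant))
    rw [basis_levelOne_slash, ← h1, show (4 : ℤ) + (w - 4) = w by ring] at e
    rw [← e]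
    exact ModularFormClass.bdd_at_infty_slash f' γ

/-! ### Finite dimensionality (Sturm bound) -/

/-- The first `B + 1` coefficients of the `q`-expansion, as a linear map. -/
def basis_qmap (N : ℕ) [NeZero N] (w : ℤ) (B : ℕ) :
    ModularForm (Γ N) w →ₗ[ℂ] (Fin (B + 1) → ℂ) where
  toFun f := fun n => (qExpansion 1 f).coeff n
  map_add' f g := by
    funext n
    have := ModularForm.qExpansion_add one_pos
      (CongruenceSubgroup.one_mem_strictPeriods_Gamma0 N) f g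
    rw [show ⇑(f + g) = ⇑f + ⇑g from rfl, this]
    simp
  map_smul' c f := by
    funext n
    have := ModularForm.qExpansion_smul one_pos
      (CongruenceSubgroup.one_mem_strictPeriods_Gamma0 N) c f
    rw [show ⇑(c • f) = c • ⇑f from rfl, this]
    simp

lemma basis_qmap_injective (N : ℕ) [NeZero N] (w : ℤ) :
    Function.Injective (basis_qmap N w ((w * (Gamma0 N).index).toNat / 12)) := by
  rw [injective_iff_map_eq_zero]
  intro f hf
  apply ModularForm.sturm_bound_Gamma0 N f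
  intro n hn
  exact congrFun hf ⟨n, Nat.lt_succ_of_le hn⟩

lemma basis_fd (N : ℕ) [NeZero N] (w : ℤ) : FiniteDimensional ℂ (ModularForm (Γ N) w) :=
  FiniteDimensional.of_injective _ (basis_qmap_injective N w)

lemma basis_finrank_le (N : ℕ) [NeZero N] (w : ℤ) :
    Module.finrank ℂ (ModularForm (Γ N) w) ≤ (w * (Gamma0 N).index).toNat / 12 + 1 := by
  have := LinearMap.finrank_le_finrank_of_injective (basis_qmap_injective N w)
  simpa using this

lemma basis_M_fd (N : ℕ) [NeZero N] (w : ℤ) : FiniteDimensional ℂ ↥(basis_M N w) := by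
  have := basis_fd N w
  unfold basis_M
  infer_instance

lemma basis_R_fd (w : ℤ) : FiniteDimensional ℂ ↥(basis_R w) := by
  unfold basis_R
  infer_instance

lemma basis_finrank_M_le (N : ℕ) [NeZero N] (w : ℤ) :
    Module.finrank ℂ ↥(basis_M N w) ≤ (w * (Gamma0 N).index).toNat / 12 + 1 := by
  unfold basis_M
  rw [LinearMap.finrank_range_of_inj (basis_coeM_injective N w)]
  exact basis_finrank_le N w

lemma basis_finrank_levelOne_nat (k : ℕ) (hk : Even k) :
    Module.finrank ℂ (ModularForm 𝒮ℒ (k : ℤ)) = basis_rho (k : ℤ) := by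
  rw [Module.finrank, dimension_level_one k hk]
  unfold basis_rho
  rw [Nat.even_iff] at hk
  have h1 : ¬ ((k : ℤ) < 0 ∨ (k : ℤ) % 2 = 1) := by omega
  rw [if_neg h1]
  simp only [Int.toNat_natCast, Cardinal.toNat_natCast, Nat.ModEq, Nat.reduceMod]
  split_ifs <;> rfl

lemma basis_finrank_levelOne (w : ℤ) :
    Module.finrank ℂ (ModularForm 𝒮ℒ w) = basis_rho w := by
  by_cases hneg : w < 0
  · rw [basis_rho_neg hneg, Module.finrank, levelOne_neg_weight_rank_zero hneg]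
    simp
  · by_cases hodd : w % 2 = 1
    · rw [(basis_rho_spec w).1 (Or.inr hodd), Module.finrank,
        levelOne_odd_weight_rank_zero (Int.odd_iff.mpr hodd)]
      simp
    · have hw : w = ((w.toNat : ℕ) : ℤ) := by omega
      rw [hw]
      apply basis_finrank_levelOne_nat
      rw [Nat.even_iff]
      omega

lemma basis_finrank_R (w : ℤ) : Module.finrank ℂ ↥(basis_R w) = basis_rho w := by
  unfold basis_R
  rw [LinearMap.finrank_range_of_inj (basis_coeR_injective w)]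
  exact basis_finrank_levelOne w

end

end Fermat.Agent.S20

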